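/-
S41 / [PD-COMM], elementary algebra of a primitive `κ` of a cup product `φ ∪ ψ` on an abstract
group `Γ` (helper34).

`φ ψ : Γ → R` additive characters (`φ (γ δ) = φ γ + φ δ`), `κ : Γ → R` with
`κ (γ δ) = κ γ + κ δ - φ γ * ψ δ`.  Then `κ 1 = 0`, `κ` is conjugation invariant on the elements
killed by `φ` and `ψ`, additive on them, two primitives differ by a character, and primitives are
transported by group isomorphisms.
-/
import Mathlib

set_option autoImplicit false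

namespace Fermat.Agent.S41.PDComm34

variable {Γ : Type*} [Group Γ] {R : Type*} [CommRing R]

/-- additive characters written multiplicatively on the source -/
def IsChar (φ : Γ → R) : Prop := ∀ γ δ : Γ, φ (γ * δ) = φ γ + φ δ

/-- `κ` is a primitive of `φ ∪ ψ` (trivial coefficients). -/
def IsPrimTriv (φ ψ κ : Γ → R) : Prop := ∀ γ δ : Γ, κ (γ * δ) = κ γ + κ δ - φ γ * ψ δ

theorem IsChar.map_one {φ : Γ → R} (hφ : IsChar φ) : φ 1 = 0 := by
  have h := hφ 1 1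
  rw [mul_one] at h
  linear_combination -h

theorem IsChar.map_inv {φ : Γ → R} (hφ : IsChar φ) (γ : Γ) : φ γ⁻¹ = -φ γ := by
  have h := hφ γ γ⁻¹
  rw [mul_inv_cancel, hφ.map_one] at h
  linear_combination -h

theorem IsChar.map_conj {φ : Γ → R} (hφ : IsChar φ) (δ γ : Γ) : φ (δ * γ * δ⁻¹) = φ γ := by
  rw [hφ, hφ, hφ.map_inv]; ring

section

variable {φ ψ κ : Γ → R}

theorem IsPrimTriv.map_one (hφ : IsChar φ) (hκ : IsPrimTriv φ ψ κ) : κ 1 = 0 := by
  have h := hκ 1 1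
  rw [mul_one, hφ.map_one, zero_mul, sub_zero] at h
  linear_combination -h

theorem IsPrimTriv.map_inv (hφ : IsChar φ) (hψ : IsChar ψ) (hκ : IsPrimTriv φ ψ κ) (γ : Γ) :
    κ γ⁻¹ = -κ γ - φ γ * ψ γ := by
  have h := hκ γ γ⁻¹
  rw [mul_inv_cancel, hκ.map_one hφ, hψ.map_inv] at h
  linear_combination -h

/-- **Conjugation invariance on the common kernel of `φ` and `ψ`.** -/
theorem IsPrimTriv.map_conj (hφ : IsChar φ) (hψ : IsChar ψ) (hκ : IsPrimTriv φ ψ κ)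
    {γ : Γ} (h1 : φ γ = 0) (h2 : ψ γ = 0) (δ : Γ) : κ (δ * γ * δ⁻¹) = κ γ := by
  rw [hκ (δ * γ) δ⁻¹, hκ δ γ, hκ.map_inv hφ hψ δ, hφ δ γ, hψ.map_inv, h1, h2]
  ring

/-- On the common kernel, `κ` is additive. -/
theorem IsPrimTriv.map_mul_of_ker (hκ : IsPrimTriv φ ψ κ) {γ : Γ} (h1 : φ γ = 0) (δ : Γ) :
    κ (γ * δ) = κ γ + κ δ := by
  rw [hκ γ δ, h1]; ring

theorem IsPrimTriv.map_pow_of_ker (hφ : IsChar φ) (hκ : IsPrimTriv φ ψ κ) {γ : Γ} (h1 : φ γ = 0)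
    (n : ℕ) : κ (γ ^ n) = n * κ γ := by
  induction n with
  | zero => simp [hκ.map_one hφ]
  | succ n ih =>
    rw [pow_succ', hκ.map_mul_of_ker h1, ih]
    push_cast; ring

/-- Two primitives differ by a character. -/
theorem IsPrimTriv.sub_isChar {κ' : Γ → R} (hκ : IsPrimTriv φ ψ κ) (hκ' : IsPrimTriv φ ψ κ') :
    IsChar (fun γ => κ γ - κ' γ) := by
  intro γ δ
  simp only [hκ γ δ, hκ' γ δ]
  ring

theorem IsPrimTriv.add_char {χ : Γ → R} (hκ : IsPrimTriv φ ψ κ) (hχ : IsChar χ) :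
    IsPrimTriv φ ψ (fun γ => κ γ + χ γ) := by
  intro γ δ
  simp only [hκ γ δ, hχ γ δ]
  ring

/-- Transport along a group homomorphism (in particular along conjugation by an element of the
commensurator). -/
theorem IsPrimTriv.comp {Γ' : Type*} [Group Γ'] (c : Γ' →* Γ) (hκ : IsPrimTriv φ ψ κ) :
    IsPrimTriv (φ ∘ c) (ψ ∘ c) (κ ∘ c) := by
  intro γ δ
  simp only [Function.comp_apply, map_mul, hκ (c γ) (c δ)]

theorem IsChar.comp {Γ' : Type*} [Group Γ'] (c : Γ' →* Γ) (hφ : IsChar φ) : IsChar (φ ∘ c) := by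
  intro γ δ
  simp only [Function.comp_apply, map_mul, hφ (c γ) (c δ)]

/-- bilinearity helpers: primitives add up -/
theorem IsPrimTriv.add_left {φ' κ' : Γ → R} (hκ : IsPrimTriv φ ψ κ) (hκ' : IsPrimTriv φ' ψ κ') :
    IsPrimTriv (fun γ => φ γ + φ' γ) ψ (fun γ => κ γ + κ' γ) := by
  intro γ δ
  simp only [hκ γ δ, hκ' γ δ]
  ring

theorem IsPrimTriv.add_right {ψ' κ' : Γ → R} (hκ : IsPrimTriv φ ψ κ) (hκ' : IsPrimTriv φ ψ' κ') :
    IsPrimTriv φ (fun γ => ψ γ + ψ' γ) (fun γ => κ γ + κ' γ) := by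
  intro γ δ
  simp only [hκ γ δ, hκ' γ δ]
  ring

theorem IsPrimTriv.smul_left (a : R) (hκ : IsPrimTriv φ ψ κ) :
    IsPrimTriv (fun γ => a * φ γ) ψ (fun γ => a * κ γ) := by
  intro γ δ
  simp only [hκ γ δ]
  ring

theorem IsPrimTriv.smul_right (a : R) (hκ : IsPrimTriv φ ψ κ) :
    IsPrimTriv φ (fun γ => a * ψ γ) (fun γ => a * κ γ) := by
  intro γ δ
  simp only [hκ γ δ]
  ring

/-- swapping the two characters: `-(κ + φ ψ)` is a primitive of `ψ ∪ φ` (graded commutativity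
at cochain level). -/
theorem IsPrimTriv.swap (hφ : IsChar φ) (hψ : IsChar ψ) (hκ : IsPrimTriv φ ψ κ) :
    IsPrimTriv ψ φ (fun γ => -(κ γ) - φ γ * ψ γ) := by
  intro γ δ
  simp only [hκ γ δ, hφ γ δ, hψ γ δ]
  ring

end

end Fermat.Agent.S41.PDComm34
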