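/-
S41 / [PD-COMM], abstract generator computation (helper34).

`G` any group with elements `s t`, `s * s = 1`, `t * t * t = 1`, acting on a commutative ring `A`
by ring automorphisms; `ε : A →+ ℚ` a `G`-invariant additive functional, `⟨a, b⟩ := ε (a * b)`.

* `six_mul_eps_K_st` : if `z z'` are 1-cocycles with `z s = z t = m`, `z' s = z' t = m'` and `K` is a
  1-cochain with `dK = z ∪ z'` (i.e. `K (g h) = K g + g • K h - z g * g • z' h`), then
  `6 * ε (K (s * t)) = ε (m * m') + 2 * ε (m * t • m')`.
* `eps_eq_of_isPrim` : two such `K` have the same `ε ∘ K` on all of `G` as soon as `G` is generated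
  by `s` and `t`.
-/
import Mathlib

set_option autoImplicit false

namespace Fermat.Agent.S41.PDComm34

variable {G : Type*} [Group G] {A : Type*} [CommRing A] [MulSemiringAction G A]

/-- 1-cocycles `G → A`. -/
def IsCoc (z : G → A) : Prop := ∀ g h : G, z (g * h) = z g + g • z h

/-- `dK = z ∪ z'` with `(z ∪ z') (g, h) = z g * g • z' h` and `(dK)(g,h) = K g + g • K h - K (g h)`. -/
def IsPrim (z z' K : G → A) : Prop :=
  ∀ g h : G, K (g * h) = K g + g • K h - z g * g • z' h

theorem IsCoc.map_one {z : G → A} (hz : IsCoc z) : z 1 = 0 := by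
  have h := hz 1 1
  simp only [mul_one, one_smul] at h
  linear_combination -h

theorem IsPrim.map_one {z z' K : G → A} (hz : IsCoc z) (hK : IsPrim z z' K) : K 1 = 0 := by
  have h := hK 1 1
  simp only [mul_one, one_smul, hz.map_one, zero_mul, sub_zero] at h
  linear_combination -h

section Generator

variable {s t : G} {z z' K : G → A} {m m' : A}

theorem add_smul_s_eq_zero (hs : s * s = 1) (hz : IsCoc z) (hzs : z s = m) : m + s • m = 0 := by
  have h := hz s s
  rw [hs, hz.map_one, hzs] at h
  exact h.symm

theorem coc_tt (hz : IsCoc z) (hzt : z t = m) : z (t * t) = m + t • m := by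
  rw [hz t t, hzt]

theorem add_smul_t_eq_zero (ht : t * t * t = 1) (hz : IsCoc z) (hzt : z t = m) :
    m + t • m + (t * t) • m = 0 := by
  have h := hz (t * t) t
  rw [ht, hz.map_one, coc_tt hz hzt, hzt] at h
  exact h.symm

variable (ε : A →+ ℚ)

/-- **Generator formula**: `6 ε(K(st)) = ⟨m, m'⟩ + 2 ⟨m, t m'⟩`. -/
theorem six_mul_eps_K_st (hs : s * s = 1) (ht : t * t * t = 1)
    (hε : ∀ (g : G) (a : A), ε (g • a) = ε a)
    (hz : IsCoc z) (hz' : IsCoc z') (hK : IsPrim z z' K)
    (hzs : z s = m) (hzt : z t = m) (hzs' : z' s = m') (hzt' : z' t = m') :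
    6 * ε (K (s * t)) = ε (m * m') + 2 * ε (m * t • m') := by
  -- relations for `m'`
  have hsm' : s • m' = -m' := by
    have := add_smul_s_eq_zero hs hz' hzs'
    linear_combination this
  have htm' : (t * t) • m' = -m' - t • m' := by
    have := add_smul_t_eq_zero ht hz' hzt'
    linear_combination this
  -- `s² = 1`
  have h1 : K s + s • K s = -(m * m') := by
    have h := hK s s
    rw [hs, hK.map_one hz, hzs, hzs', hsm'] at h
    linear_combination -h
  -- `t³ = 1`
  have h2 : K (t * t) = K t + t • K t - m * t • m' := by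
    have h := hK t t
    rw [hzt, hzt'] at h
    exact h
  have h3 : K t + t • K t + (t * t) • K t
      = m * t • m' + (m + t • m) * (t * t) • m' := by
    have h := hK (t * t) t
    rw [ht, hK.map_one hz, h2, coc_tt hz hzt, hzt'] at h
    linear_combination -h
  -- `K (s t)`
  have h4 : K (s * t) = K s + s • K t + m * m' := by
    have h := hK s t
    rw [hzs, hzt', hsm'] at h
    linear_combination h
  -- apply `ε`
  have e1 : 2 * ε (K s) = -ε (m * m') := by
    have := congrArg ε h1
    rw [map_add, hε, map_neg] at this
    linarith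
  have e3a : ε (t • m * (t * t) • m') = ε (m * t • m') := by
    have : t • m * (t * t) • m' = t • (m * t • m') := by
      rw [smul_mul', mul_smul]
    rw [this, hε]
  have e3b : ε (m * (t * t) • m') = -ε (m * m') - ε (m * t • m') := by
    rw [htm']
    have : m * (-m' - t • m') = -(m * m') - m * t • m' := by ring
    rw [this, map_sub, map_neg]
  have e3 : 3 * ε (K t) = ε (m * t • m') - ε (m * m') := by
    have := congrArg ε h3
    rw [map_add, map_add, hε, hε, add_mul, map_add, map_add, e3a, e3b] at this
    linarith
  have e4 : ε (K (s * t)) = ε (K s) + ε (K t) + ε (m * m') := by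
    rw [h4, map_add, map_add, hε]
  linarith

/-- Two primitives of the same cup product differ by a cocycle. -/
theorem isCoc_sub {K₁ K₂ : G → A} (h₁ : IsPrim z z' K₁) (h₂ : IsPrim z z' K₂) :
    IsCoc (fun g => K₁ g - K₂ g) := by
  intro g h
  simp only [h₁ g h, h₂ g h, smul_sub]
  ring

/-- `ε ∘ (cocycle)` is a homomorphism to `ℚ`, hence vanishes on a group generated by two torsion
elements. -/
theorem eps_coc_eq_zero (hs : s * s = 1) (ht : t * t * t = 1)
    (hgen : Subgroup.closure ({s, t} : Set G) = ⊤)
    (hε : ∀ (g : G) (a : A), ε (g • a) = ε a) {D : G → A} (hD : IsCoc D) (g : G) :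
    ε (D g) = 0 := by
  -- the homomorphism `G → Multiplicative ℚ`
  let f : G →* Multiplicative ℚ :=
    { toFun := fun g => Multiplicative.ofAdd (ε (D g))
      map_one' := by simp [hD.map_one]
      map_mul' := fun g h => by
        simp only [hD g h, map_add, hε]
        rfl }
  have hfs : f s = 1 := by
    have h : f (s * s) = 1 := by rw [hs, map_one]
    rw [map_mul] at h
    have h' : ε (D s) + ε (D s) = 0 := by
      have := congrArg Multiplicative.toAdd h
      simpa [f] using this
    have : ε (D s) = 0 := by linarith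
    simp [f, this]
  have hft : f t = 1 := by
    have h : f (t * t * t) = 1 := by rw [ht, map_one]
    rw [map_mul, map_mul] at h
    have h' : ε (D t) + ε (D t) + ε (D t) = 0 := by
      have := congrArg Multiplicative.toAdd h
      simpa [f] using this
    have : ε (D t) = 0 := by linarith
    simp [f, this]
  have hker : (⊤ : Subgroup G) ≤ f.ker := by
    rw [← hgen, Subgroup.closure_le]
    rintro x (rfl | rfl)
    · exact hfs
    · exact hft
  have : f g = 1 := hker (Subgroup.mem_top g)
  have := congrArg Multiplicative.toAdd this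
  simpa [f] using this

/-- **Independence of the primitive**: `ε (K g)` depends only on `z ∪ z'`. -/
theorem eps_eq_of_isPrim (hs : s * s = 1) (ht : t * t * t = 1)
    (hgen : Subgroup.closure ({s, t} : Set G) = ⊤)
    (hε : ∀ (g : G) (a : A), ε (g • a) = ε a) {K₁ K₂ : G → A}
    (h₁ : IsPrim z z' K₁) (h₂ : IsPrim z z' K₂) (g : G) : ε (K₁ g) = ε (K₂ g) := by
  have := eps_coc_eq_zero ε hs ht hgen hε (isCoc_sub h₁ h₂) g
  simp only [map_sub] at this
  linarith

end Generator

end Fermat.Agent.S41.PDComm34
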