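/-
S41 / [PD-COMM], generator computation, `SL(2,ℤ)`-form (helper34).

Same statements as `Generator.lean`, but for a group `G` with `s * s = c = t * t * t`, where `c` is an
element with `c * c = 1` acting trivially on the coefficient ring and killed by the cocycles
(`G = SL(2,ℤ)`, `s = S`, `t = S * T`, `c = -1`, `s * t = c * T`).
-/
import Fermat.Agent.S41.PDComm34.Generator

set_option autoImplicit false

namespace Fermat.Agent.S41.PDComm34

variable {G : Type*} [Group G] {A : Type*} [CommRing A] [MulSemiringAction G A]

section GeneratorSL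

variable {s t c : G} {z z' K : G → A} {m m' : A}

theorem add_smul_s_eq_zero' (hs : s * s = c) (hz : IsCoc z) (hzc : z c = 0) (hzs : z s = m) :
    m + s • m = 0 := by
  have h := hz s s
  rw [hs, hzc, hzs] at h
  exact h.symm

theorem add_smul_t_eq_zero' (ht : t * t * t = c) (hz : IsCoc z) (hzc : z c = 0) (hzt : z t = m) :
    m + t • m + (t * t) • m = 0 := by
  have h := hz (t * t) t
  rw [ht, hzc, coc_tt hz hzt, hzt] at h
  exact h.symm

variable (ε : A →+ ℚ)

/-- `ε (K c) = 0` for a central involution-like element killed by `z`. -/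
theorem eps_K_c (hc2 : c * c = 1) (hca : ∀ a : A, c • a = a) (hz : IsCoc z)
    (hK : IsPrim z z' K) (hzc : z c = 0) : ε (K c) = 0 := by
  have h := hK c c
  rw [hc2, hK.map_one hz, hca, hzc, zero_mul, sub_zero] at h
  have := congrArg ε h
  rw [map_zero, map_add] at this
  linarith

/-- `ε (K (c g)) = ε (K g)`. -/
theorem eps_K_c_mul (hc2 : c * c = 1) (hca : ∀ a : A, c • a = a) (hz : IsCoc z)
    (hK : IsPrim z z' K) (hzc : z c = 0) (g : G) : ε (K (c * g)) = ε (K g) := by
  have h := hK c g
  rw [hca, hzc, zero_mul, sub_zero] at h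
  rw [h, map_add, eps_K_c ε hc2 hca hz hK hzc, zero_add]

/-- **Generator formula, `SL(2,ℤ)`-form**: `6 ε(K(st)) = ⟨m, m'⟩ + 2 ⟨m, t m'⟩` when
`s² = t³ = c`, `c² = 1`, `c` acts trivially and `z c = z' c = 0`. -/
theorem six_mul_eps_K_st' (hs : s * s = c) (ht : t * t * t = c) (hc2 : c * c = 1)
    (hca : ∀ a : A, c • a = a)
    (hε : ∀ (g : G) (a : A), ε (g • a) = ε a)
    (hz : IsCoc z) (hz' : IsCoc z') (hK : IsPrim z z' K) (hzc : z c = 0) (hzc' : z' c = 0)
    (hzs : z s = m) (hzt : z t = m) (hzs' : z' s = m') (hzt' : z' t = m') :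
    6 * ε (K (s * t)) = ε (m * m') + 2 * ε (m * t • m') := by
  have hKc := eps_K_c ε hc2 hca hz hK hzc
  have hsm' : s • m' = -m' := by
    have := add_smul_s_eq_zero' hs hz' hzc' hzs'
    linear_combination this
  have htm' : (t * t) • m' = -m' - t • m' := by
    have := add_smul_t_eq_zero' ht hz' hzc' hzt'
    linear_combination this
  have h1 : K s + s • K s = K c - m * m' := by
    have h := hK s s
    rw [hs, hzs, hzs', hsm'] at h
    linear_combination -h
  have h2 : K (t * t) = K t + t • K t - m * t • m' := by
    have h := hK t t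
    rw [hzt, hzt'] at h
    exact h
  have h3 : K t + t • K t + (t * t) • K t
      = K c + m * t • m' + (m + t • m) * (t * t) • m' := by
    have h := hK (t * t) t
    rw [ht, h2, coc_tt hz hzt, hzt'] at h
    linear_combination -h
  have h4 : K (s * t) = K s + s • K t + m * m' := by
    have h := hK s t
    rw [hzs, hzt', hsm'] at h
    linear_combination h
  have e1 : 2 * ε (K s) = -ε (m * m') := by
    have := congrArg ε h1
    rw [map_add, hε, map_sub, hKc] at this
    linarith
  have e3a : ε (t • m * (t * t) • m') = ε (m * t • m') := by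
    have : t • m * (t * t) • m' = t • (m * t • m') := by
      rw [smul_mul', mul_smul]
    rw [this, hε]
  have e3b : ε (m * (t * t) • m') = -ε (m * m') - ε (m * t • m') := by
    rw [htm']
    have : m * (-m' - t • m') = -(m * m') - m * t • m' := by ring
    rw [this, map_sub, map_neg]
  have e3 : 3 * ε (K t) = ε (m * t • m') - ε (m * m') := by
    have := congrArg ε h3
    rw [map_add, map_add, hε, hε, add_mul, map_add, map_add, map_add, e3a, e3b, hKc] at this
    linarith
  have e4 : ε (K (s * t)) = ε (K s) + ε (K t) + ε (m * m') := by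
    rw [h4, map_add, map_add, hε]
  linarith

/-- `ε ∘ (cocycle)` vanishes on a group generated by `s`, `t` with `s² = t³ = c`, `c² = 1`. -/
theorem eps_coc_eq_zero' (hs : s * s = c) (ht : t * t * t = c) (hc2 : c * c = 1)
    (hgen : Subgroup.closure ({s, t} : Set G) = ⊤)
    (hε : ∀ (g : G) (a : A), ε (g • a) = ε a) {D : G → A} (hD : IsCoc D) (g : G) :
    ε (D g) = 0 := by
  let f : G →* Multiplicative ℚ :=
    { toFun := fun g => Multiplicative.ofAdd (ε (D g))
      map_one' := by simp [hD.map_one]
      map_mul' := fun g h => by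
        simp only [hD g h, map_add, hε]
        rfl }
  have hfc : ε (D c) = 0 := by
    have h : f (c * c) = 1 := by rw [hc2, map_one]
    rw [map_mul] at h
    have h' : ε (D c) + ε (D c) = 0 := by
      have := congrArg Multiplicative.toAdd h
      simpa [f] using this
    linarith
  have hfs : f s = 1 := by
    have h : f (s * s) = f c := by rw [hs]
    rw [map_mul] at h
    have h' : ε (D s) + ε (D s) = ε (D c) := by
      have := congrArg Multiplicative.toAdd h
      simpa [f] using this
    have : ε (D s) = 0 := by linarith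
    simp [f, this]
  have hft : f t = 1 := by
    have h : f (t * t * t) = f c := by rw [ht]
    rw [map_mul, map_mul] at h
    have h' : ε (D t) + ε (D t) + ε (D t) = ε (D c) := by
      have := congrArg Multiplicative.toAdd h
      simpa [f] using this
    have : ε (D t) = 0 := by linarith
    simp [f, this]
  have hker : (⊤ : Subgroup G) ≤ f.ker := by
    rw [← hgen, Subgroup.closure_le]
    rintro x (rfl | rfl)
    · exact hfs
    · exact hft
  have : f g = 1 := hker (Subgroup.mem_top g)
  have := congrArg Multiplicative.toAdd this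
  simpa [f] using this

/-- **Independence of the primitive, `SL(2,ℤ)`-form.** -/
theorem eps_eq_of_isPrim' (hs : s * s = c) (ht : t * t * t = c) (hc2 : c * c = 1)
    (hgen : Subgroup.closure ({s, t} : Set G) = ⊤)
    (hε : ∀ (g : G) (a : A), ε (g • a) = ε a) {K₁ K₂ : G → A}
    (h₁ : IsPrim z z' K₁) (h₂ : IsPrim z z' K₂) (g : G) : ε (K₁ g) = ε (K₂ g) := by
  have := eps_coc_eq_zero' ε hs ht hc2 hgen hε (isCoc_sub h₁ h₂) g
  simp only [map_sub] at this
  linarith

end GeneratorSL

end Fermat.Agent.S41.PDComm34
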