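/-
S41 / [PD-COMM], generator computation instantiated at `G = SL(2,ℤ)`, `s = S`, `t = S * T`,
`c = -1`, parabolic generator `T` (helper34).
-/
import Fermat.Agent.S41.PDComm34.GeneratorSL

set_option autoImplicit false

namespace Fermat.Agent.S41.PDComm34

open ModularGroup Matrix Matrix.SpecialLinearGroup

local notation "SL(" n ", " R ")" => Matrix.SpecialLinearGroup (Fin n) R

theorem SL2Z_S_mul_S : (S * S : SL(2, ℤ)) = -1 := by decide

theorem SL2Z_ST_cube : ((S * T) * (S * T) * (S * T) : SL(2, ℤ)) = -1 := by decide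

theorem SL2Z_neg_one_sq : ((-1) * (-1) : SL(2, ℤ)) = 1 := by decide

theorem SL2Z_S_mul_ST : (S * (S * T) : SL(2, ℤ)) = (-1) * T := by decide

theorem SL2Z_closure_S_ST : Subgroup.closure ({S, S * T} : Set SL(2, ℤ)) = ⊤ := by
  rw [eq_top_iff, ← SpecialLinearGroup.SL2Z_generators, Subgroup.closure_le]
  rintro x (rfl | rfl)
  · exact Subgroup.subset_closure (by simp)
  · have h1 : (S : SL(2, ℤ)) ∈ Subgroup.closure ({S, S * T} : Set SL(2, ℤ)) :=
      Subgroup.subset_closure (by simp)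
    have h2 : (S * T : SL(2, ℤ)) ∈ Subgroup.closure ({S, S * T} : Set SL(2, ℤ)) :=
      Subgroup.subset_closure (by simp)
    have h3 := Subgroup.mul_mem _ (Subgroup.inv_mem _ h1) h2
    rwa [inv_mul_cancel_left] at h3

variable {A : Type*} [CommRing A] [MulSemiringAction SL(2, ℤ) A]
variable {z z' K : SL(2, ℤ) → A} {m m' : A}

/-- **Generator formula at `SL(2,ℤ)`**: for cocycles `z z'` with `z S = z (S*T) = m`,
`z' S = z' (S*T) = m'`, killed at `-1`, and `dK = z ∪ z'`: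
`6 ε (K T) = ε (m m') + 2 ε (m · (ST) m')`. -/
theorem six_mul_eps_K_T (ε : A →+ ℚ) (hneg : ∀ a : A, (-1 : SL(2, ℤ)) • a = a)
    (hε : ∀ (g : SL(2, ℤ)) (a : A), ε (g • a) = ε a)
    (hz : IsCoc z) (hz' : IsCoc z') (hK : IsPrim z z' K)
    (hzc : z (-1) = 0) (hzc' : z' (-1) = 0)
    (hzs : z S = m) (hzt : z (S * T) = m) (hzs' : z' S = m') (hzt' : z' (S * T) = m') :
    6 * ε (K T) = ε (m * m') + 2 * ε (m * (S * T) • m') := by
  have h := six_mul_eps_K_st' (s := S) (t := S * T) (c := -1) ε SL2Z_S_mul_S SL2Z_ST_cube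
    SL2Z_neg_one_sq hneg hε hz hz' hK hzc hzc' hzs hzt hzs' hzt'
  rw [SL2Z_S_mul_ST, eps_K_c_mul ε SL2Z_neg_one_sq hneg hz hK hzc] at h
  exact h

/-- independence of the primitive at `SL(2,ℤ)` -/
theorem eps_eq_of_isPrim_SL2Z (ε : A →+ ℚ)
    (hε : ∀ (g : SL(2, ℤ)) (a : A), ε (g • a) = ε a) {K₁ K₂ : SL(2, ℤ) → A}
    (h₁ : IsPrim z z' K₁) (h₂ : IsPrim z z' K₂) (g : SL(2, ℤ)) : ε (K₁ g) = ε (K₂ g) :=
  eps_eq_of_isPrim' ε SL2Z_S_mul_S SL2Z_ST_cube SL2Z_neg_one_sq SL2Z_closure_S_ST hε h₁ h₂ g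

/-- `ε ∘ cocycle = 0` on `SL(2,ℤ)` -/
theorem eps_coc_eq_zero_SL2Z (ε : A →+ ℚ)
    (hε : ∀ (g : SL(2, ℤ)) (a : A), ε (g • a) = ε a) {D : SL(2, ℤ) → A} (hD : IsCoc D)
    (g : SL(2, ℤ)) : ε (D g) = 0 :=
  eps_coc_eq_zero' ε SL2Z_S_mul_S SL2Z_ST_cube SL2Z_neg_one_sq SL2Z_closure_S_ST hε hD g

/-- if `z T = 0` and `z (-1) = 0` then `z (S * T) = z S`: the normalisation `z S = z (S T) = m`
of the generator formula is the vanishing at the parabolic generator. -/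
theorem coc_ST_eq_coc_S (hz : IsCoc z)
    (hzc : z (-1) = 0) (hzT : z T = 0) : z (S * T) = z S := by
  -- z (S * (S*T)) = z ((-1) * T) = z (-1) + (-1) • z T = 0
  have h1 : z (S * (S * T)) = 0 := by
    rw [SL2Z_S_mul_ST, hz, hzc, hzT, smul_zero, add_zero]
  have h2 := hz S (S * T)
  rw [h1] at h2
  -- z S + S • z (S*T) = 0, and z S + S • z S = z (-1) = 0
  have h3 : z S + S • z S = 0 := by
    have := hz S S
    rw [SL2Z_S_mul_S, hzc] at this
    exact this.symm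
  have h4 : S • z (S * T) = S • z S := by
    have : z S + S • z (S * T) = z S + S • z S := by rw [← h2, h3]
    exact add_left_cancel this
  have := congrArg (fun a => (S⁻¹ : SL(2, ℤ)) • a) h4
  simpa using this

end Fermat.Agent.S41.PDComm34
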